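import Mathlib

/-!
# S22 / squad Q07, piece A6: kernel algebra and chain rule for Moebius maps

For `g = [a b; c d] ∈ GL(2,ℝ)` with positive determinant, `w ∈ ℍ` and `x y : ℂ`:

* `kernel_identity` : `(a x + b y) - (g • w) (c x + d y) = det g * (x - w y) / (c w + d)`;
* `hasDerivAt_comp_smul` : chain rule
  `d/dw F (g • w) = F' (g • w) * det g / (c w + d)^2`, phrased with `F ∘ ofComplex`.
-/

set_option autoImplicit false

namespace Fermat.Agent.S22.Q07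

open UpperHalfPlane Matrix
open scoped MatrixGroups

/-- `g • w = (a w + b) / (c w + d)` for `det g > 0`, with entries spelled out. -/
theorem coe_smul_eq_div {g : GL (Fin 2) ℝ} (hg : 0 < g.val.det) (w : ℍ) :
    ((g • w : ℍ) : ℂ) = ((g 0 0 : ℂ) * w + (g 0 1 : ℂ)) / ((g 1 0 : ℂ) * w + (g 1 1 : ℂ)) := by
  have hg' : 0 < g.det.val := by
    rwa [Matrix.GeneralLinearGroup.val_det_apply]
  rw [coe_smul_of_det_pos hg' w]
  rfl

/-- The determinant of `g`, spelled out in entries and cast to `ℂ`. -/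
theorem det_coe_eq (g : GL (Fin 2) ℝ) :
    ((g.val.det : ℝ) : ℂ) = (g 0 0 : ℂ) * (g 1 1 : ℂ) - (g 0 1 : ℂ) * (g 1 0 : ℂ) := by
  rw [Matrix.det_fin_two]
  push_cast
  rfl

/-- **Kernel identity.** For `g = [a b; c d]` with `det g > 0`:
`(a x + b y) - (g • w) (c x + d y) = det g * (x - w y) / (c w + d)`. -/
theorem kernel_identity {g : GL (Fin 2) ℝ} (hg : 0 < g.val.det) (w : ℍ) (x y : ℂ) :
    ((g 0 0 : ℂ) * x + (g 0 1 : ℂ) * y)
        - ((g • w : ℍ) : ℂ) * ((g 1 0 : ℂ) * x + (g 1 1 : ℂ) * y)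
      = ((g.val.det : ℝ) : ℂ) * (x - (w : ℂ) * y) / denom g w := by
  have hden : ((g 1 0 : ℂ) * w + (g 1 1 : ℂ)) ≠ 0 := denom_ne_zero g w
  rw [coe_smul_eq_div hg, det_coe_eq]
  change _ = _ / ((g 1 0 : ℂ) * w + (g 1 1 : ℂ))
  rw [eq_div_iff hden, sub_mul, mul_right_comm, div_mul_cancel₀ _ hden]
  ring

/-- Version of the kernel identity with the factor `c w + d` cleared. -/
theorem kernel_identity_mul {g : GL (Fin 2) ℝ} (hg : 0 < g.val.det) (w : ℍ) (x y : ℂ) :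
    (((g 0 0 : ℂ) * x + (g 0 1 : ℂ) * y)
        - ((g • w : ℍ) : ℂ) * ((g 1 0 : ℂ) * x + (g 1 1 : ℂ) * y)) * denom g w
      = ((g.val.det : ℝ) : ℂ) * (x - (w : ℂ) * y) := by
  rw [kernel_identity hg, div_mul_cancel₀ _ (denom_ne_zero g w)]

/-- **Chain rule for Moebius maps.** If `F ∘ ofComplex` has derivative `F'` at `g • w`, then
`(F (g • ·)) ∘ ofComplex` has derivative `F' * (det g / (c w + d)^2)` at `w`. -/
theorem hasDerivAt_comp_smul {g : GL (Fin 2) ℝ} (hg : 0 < g.val.det) {F : ℍ → ℂ} {F' : ℂ}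
    (w : ℍ) (hF : HasDerivAt (F ∘ ofComplex) F' ((g • w : ℍ) : ℂ)) :
    HasDerivAt ((fun z : ℍ => F (g • z)) ∘ ofComplex)
      (F' * (((g.val.det : ℝ) : ℂ) / denom g w ^ 2)) (w : ℂ) := by
  have h_smul : HasDerivAt (fun z ↦ ↑(g • ofComplex z) : ℂ → ℂ)
      (((g.val.det : ℝ) : ℂ) / denom g w ^ 2) (w : ℂ) :=
    (hasStrictDerivAt_smul hg w).hasDerivAt
  have hw : ((g • ofComplex (w : ℂ) : ℍ) : ℂ) = ((g • w : ℍ) : ℂ) := by
    rw [ofComplex_apply]
  have hF' : HasDerivAt (F ∘ ofComplex) F' ((fun z ↦ ↑(g • ofComplex z) : ℂ → ℂ) (w : ℂ)) := by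
    simpa only [hw] using hF
  have hcomp := hF'.comp (w : ℂ) h_smul
  refine hcomp.congr_of_eventuallyEq ?_
  filter_upwards with z
  simp only [Function.comp_apply, ofComplex_apply]

/-- Derivative form of `hasDerivAt_comp_smul` for a holomorphic `F`. -/
theorem hasDerivAt_comp_smul_of_mdifferentiable {g : GL (Fin 2) ℝ} (hg : 0 < g.val.det)
    {F : ℍ → ℂ} (hF : MDifferentiable (modelWithCornersSelf ℂ ℂ) (modelWithCornersSelf ℂ ℂ) F)
    (w : ℍ) :
    HasDerivAt ((fun z : ℍ => F (g • z)) ∘ ofComplex)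
      (deriv (F ∘ ofComplex) ((g • w : ℍ) : ℂ) * (((g.val.det : ℝ) : ℂ) / denom g w ^ 2))
      (w : ℂ) :=
  hasDerivAt_comp_smul hg w (mdifferentiableAt_iff.mp (hF (g • w))).hasDerivAt

end Fermat.Agent.S22.Q07
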